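import Mathlib
import Fermat.Agent.S17.H500.Package

/-!
# S17 / tower H, formal leaves F-B and F-INV                                   (helper587)

For an arbitrary `P : PairingPackage A`:

* `bz P : P.BZStatement`  — `B (Z a) E` is bounded by `C (deg E + 1)` (from `e3`, `bez`);
* `inv P hBZ : P.InvStatement` — `B` is a class function in the first variable up to
  `C (deg E + 1)` (from `mov2` with `T := E`, `pr_add`, `N_add`, additivity of `deg`).

Also: `m_pos`, `B_add_left` (exact additivity of `B` in the first variable on divisors disjoint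
from `E`), `B_Z_eq` (the identity behind F-B).
-/

set_option autoImplicit false

namespace Fermat.Agent.S17.H587

open Fermat.Agent.S17.H500

variable {A : Type} [AddCommGroup A] (P : PairingPackage A)

/-- `m > 0`. -/
theorem m_pos : 0 < P.m := by
  have h1 := P.one_le_g
  have h2 := P.two_g_le_d
  have h3 := P.four_d_le_m
  omega

/-- `(m : ℝ) > 0`. -/
theorem m_pos_real : (0 : ℝ) < P.m := by
  exact_mod_cast m_pos P

/-- `B` is exactly additive in the first variable on divisors disjoint from `E`. -/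
theorem B_add_left (D₁ D₂ E : P.Dv) (h : P.Disj (D₁ + D₂) E) :
    P.B (D₁ + D₂) E = P.B D₁ E + P.B D₂ E := by
  unfold PairingPackage.B
  rw [P.pr_add D₁ D₂ E h, P.N_add, map_add]
  push_cast
  ring

/-- The identity behind F-B. -/
theorem B_Z_eq (a : P.Lin) (E : P.Dv) :
    P.B (P.Z a) E =
      (P.pr (P.Z a) E - ((P.deg E : ℝ) * P.ht a + P.N E)) -
        ((P.deg E : ℝ) / P.m) * (P.N (P.Z a) - P.m * P.ht a) := by
  have hm : (P.m : ℝ) ≠ 0 := (m_pos_real P).ne'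
  unfold PairingPackage.B
  rw [P.deg_Z a]
  field_simp
  ring

/-- **F-B.** -/
theorem bz : P.BZStatement := by
  obtain ⟨C₁, h₁⟩ := P.e3
  obtain ⟨C₂, h₂⟩ := P.bez
  refine ⟨|C₁| + |C₂|, ?_⟩
  intro a E hdisj
  have hm : (0 : ℝ) < P.m := m_pos_real P
  have hm1 : (1 : ℝ) ≤ P.m := by exact_mod_cast m_pos P
  have hdeg : (0 : ℝ) ≤ P.deg E := Nat.cast_nonneg _
  have hfrac0 : 0 ≤ (P.deg E : ℝ) / P.m := div_nonneg hdeg hm.le
  have hfrac : (P.deg E : ℝ) / P.m ≤ P.deg E := div_le_self hdeg hm1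
  have e1 := h₁ a E hdisj
  have e2 := h₂ a
  rw [B_Z_eq]
  have t1 : |P.pr (P.Z a) E - ((P.deg E : ℝ) * P.ht a + P.N E)| ≤ |C₁| * P.deg E :=
    e1.trans (mul_le_mul_of_nonneg_right (le_abs_self C₁) hdeg)
  have t2 : |((P.deg E : ℝ) / P.m) * (P.N (P.Z a) - P.m * P.ht a)| ≤ |C₂| * P.deg E := by
    rw [abs_mul, abs_of_nonneg hfrac0]
    have e2' : |P.N (P.Z a) - P.m * P.ht a| ≤ |C₂| := e2.trans (le_abs_self C₂)
    calc (P.deg E : ℝ) / P.m * |P.N (P.Z a) - P.m * P.ht a|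
        ≤ (P.deg E : ℝ) * |C₂| := mul_le_mul hfrac e2' (abs_nonneg _) hdeg
      _ = |C₂| * P.deg E := mul_comm _ _
  have t3 := abs_sub (P.pr (P.Z a) E - ((P.deg E : ℝ) * P.ht a + P.N E))
    (((P.deg E : ℝ) / P.m) * (P.N (P.Z a) - P.m * P.ht a))
  have hC₁ := abs_nonneg C₁
  have hC₂ := abs_nonneg C₂
  nlinarith

/-- **F-INV.** -/
theorem inv (hBZ : P.BZStatement) : P.InvStatement := by
  obtain ⟨C, hC⟩ := hBZ
  refine ⟨2 * C, ?_⟩
  intro D₁ D₂ E hdeg hm hcls hd₁ hd₂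
  obtain ⟨R, a₁, a₂, hZ₁, hZ₂, hRE⟩ := P.mov2 D₁ D₂ hdeg hm hcls E
  have hd₁R : P.Disj (D₁ + R) E := (P.disj_add_left D₁ R E).2 ⟨hd₁, hRE⟩
  have hd₂R : P.Disj (D₂ + R) E := (P.disj_add_left D₂ R E).2 ⟨hd₂, hRE⟩
  have b₁ := hC a₁ E (by rw [hZ₁]; exact hd₁R)
  have b₂ := hC a₂ E (by rw [hZ₂]; exact hd₂R)
  rw [hZ₁, B_add_left P D₁ R E hd₁R] at b₁
  rw [hZ₂, B_add_left P D₂ R E hd₂R] at b₂
  have key : P.B D₁ E - P.B D₂ E = (P.B D₁ E + P.B R E) - (P.B D₂ E + P.B R E) := by ring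
  rw [key]
  have t := abs_sub (P.B D₁ E + P.B R E) (P.B D₂ E + P.B R E)
  linarith

end Fermat.Agent.S17.H587
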